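import Mathlib
import Fermat.Agent.H66.SS.Frac
import Fermat.Agent.H41.SS.OrdInterfaces

/-!
# P-SS row 959 (SSH-16 FRAC, helper61): FRAC in the form of helper41's interface

`modelFracH41 M q hq hqM : Fermat.Agent.H41.SS.ModelFracStatement M q`:
for `z` in the Gauss valuation ring `V_∞` of level `M q` there is `z'` in the Gauss valuation ring
of level `M` with `z - z' ∈ 𝔪_∞` (residue degree one of `V_∞` over level `M`).

Adapter on helper66's landed core (`Fermat.Agent.H66.SS.frac_core`, `frac_sep`,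
`fv_exists_pow`): `z` is replaced by `z ε ^ n ∈ V_∞ ∩ V_0` (`ε ≡ 1` modulo `𝔪_∞`, `ε ∈ 𝔪_0`), the
core gives `a₁, c₁` of level `M` with explicit `A₀`-integral expansions, `c₁` primitive, and
`c₁ z ε ^ n - a₁ ∈ 𝔪_∞`; take `z' = a₁ / c₁`.
-/

set_option autoImplicit false
set_option maxSynthPendingDepth 3
set_option linter.unusedSectionVars false
set_option linter.style.haveILetI false
set_option synthInstance.maxHeartbeats 400000
set_option maxHeartbeats 1600000

noncomputable section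

namespace Fermat.Agent.H61.SS

open Polynomial ModularCurve
open Fermat.Agent.H22.KL Fermat.Agent.H27.KLGB Fermat.Agent.H82.SS
open Fermat.Agent.H48.QExp Fermat.Agent.H87.KL Fermat.Agent.H7.SS Fermat.Agent.H66.SS

/-- An element of the Gauss valuation ring of `E` lies in `E`. -/
theorem inV_mem {K₁ : Type} [Field K₁] {A₀ : Type} [CommRing A₀] [IsDomain A₀]
    [IsDiscreteValuationRing A₀] [Algebra A₀ K₁] [IsFractionRing A₀ K₁]
    (E : IntermediateField K₁ (LaurentSeries K₁)) {z : LaurentSeries K₁}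
    (hz : InV (A₀ := A₀) E z) : z ∈ E := by
  obtain ⟨a, b, ha, hb, hrb, hab⟩ := hz
  have hb0 : gIota K₁ A₀ b ≠ 0 := gIota_ne_zero_of_gRho hrb
  have h1 : z = gIota K₁ A₀ a * (gIota K₁ A₀ b)⁻¹ := by
    rw [← hab, mul_assoc, mul_inv_cancel₀ hb0, mul_one]
  rw [h1]
  exact E.mul_mem ha (E.inv_mem hb)

/-- **FRAC** in the form of row 959 (helper41's interface). -/
theorem modelFracH41 (M q : ℕ) [NeZero M] [NeZero q] (hq : q.Prime) (hqM : ¬ q ∣ M) :
    Fermat.Agent.H41.SS.ModelFracStatement M q := by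
  intro K₁ _ _ _ A₀ _ _ _ _ _ hqA z₀ hz₀
  classical
  letI algE : Algebra A₀ (ModelField K₁ (M * q)) :=
    ((algebraMap K₁ (ModelField K₁ (M * q))).comp (algebraMap A₀ K₁)).toAlgebra
  haveI : IsScalarTower A₀ K₁ (ModelField K₁ (M * q)) :=
    IsScalarTower.of_algebraMap_eq (fun _ => rfl)
  obtain ⟨ϖ, hϖ⟩ := IsDiscreteValuationRing.exists_irreducible A₀
  have hφ : Function.Injective (algebraMap A₀ K₁) := IsFractionRing.injective A₀ K₁
  have hcop : Nat.Coprime M q := ((Nat.Prime.coprime_iff_not_dvd hq).2 hqM).symm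
  -- the chart coordinate
  have hxM : coeffEmb K₁ jq ∈ laurentBaseChange K₁ (modularFunctionFieldFull (M * q)) := by
    rw [coeffEmb_jq, ← coeffEmb_jq]
    exact coeffEmb_mem_laurentBaseChange K₁ (jqModC_mem_full ℚ (M * q))
  obtain ⟨x, hx⟩ : ∃ x : ModelField K₁ (M * q), (x : LaurentSeries K₁) = coeffEmb K₁ jq :=
    ⟨⟨_, hxM⟩, rfl⟩
  -- `z₀` as an element of the model field
  obtain ⟨z, hz⟩ : ∃ z : ModelField K₁ (M * q), (z : LaurentSeries K₁) = z₀ :=
    ⟨⟨z₀, inV_mem _ hz₀⟩, rfl⟩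
  obtain ⟨W, hW⟩ := Fermat.Agent.H62.SS.modelAtkinLehnerExists M q hcop K₁
  have hG := hasGNF_model K₁ A₀ (M * q)
  have hzV : InV (A₀ := A₀) (laurentBaseChange K₁ (modularFunctionFieldFull (M * q)))
      (z : LaurentSeries K₁) := by rw [hz]; exact hz₀
  -- the separating element
  obtain ⟨ε, hε1, hWε⟩ := frac_sep M q K₁ A₀ hq hqA W hW
  have hεV : InV (A₀ := A₀) (laurentBaseChange K₁ (modularFunctionFieldFull (M * q)))
      (ε : LaurentSeries K₁) := InM.inV_of_sub_one _ hε1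
  obtain ⟨n, hn⟩ := fv_exists_pow (laurentBaseChange K₁ (modularFunctionFieldFull (M * q))) hG hϖ
    (w := ((W z : ModelField K₁ (M * q)) : LaurentSeries K₁))
    (t := ((W ε : ModelField K₁ (M * q)) : LaurentSeries K₁)) (Subtype.mem _) hWε
  -- `z' = z ε ^ n`
  set z' : ModelField K₁ (M * q) := z * ε ^ n with hz'
  have hz'V : InV (A₀ := A₀) (laurentBaseChange K₁ (modularFunctionFieldFull (M * q)))
      (z' : LaurentSeries K₁) := InV.mul _ hzV (fv_inV_pow _ hεV n)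
  have hWz'V : InV (A₀ := A₀) (laurentBaseChange K₁ (modularFunctionFieldFull (M * q)))
      ((W z' : ModelField K₁ (M * q)) : LaurentSeries K₁) := by
    rw [hz', map_mul, map_pow]
    exact hn
  have hdiff : InM (A₀ := A₀) (laurentBaseChange K₁ (modularFunctionFieldFull (M * q)))
      ((z' - z : ModelField K₁ (M * q)) : LaurentSeries K₁) := by
    have h1 : z' - z = (ε ^ n - 1) * z := by rw [hz']; ring
    rw [h1]
    exact fv_inM_mul _ (fv_inM_pow_sub_one _ hε1 n) hzV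
  -- quotient forms
  obtain ⟨a, b, ha, hb, hbu, hab⟩ := InV.exists_quot _ hz'V
  obtain ⟨a₂, b₂, ha₂, hb₂, hbu₂, hab₂⟩ := InV.exists_quot _ hWz'V
  have hb0 : b ≠ 0 := by
    rintro rfl
    obtain ⟨n, c, hc, hcn⟩ := hbu
    have h0 : algebraMap A₀ K₁ c = 0 := by
      rw [hcn]
      rfl
    exact hc.ne_zero ((map_eq_zero_iff _ hφ).1 h0)
  have hzab : a / b = z' := by
    rw [div_eq_iff hb0]
    exact hab.symm
  have h3 : z' * W.symm b₂ = W.symm a₂ := by
    rw [← hab₂, map_mul, W.symm_apply_apply]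
  have hrel : a * W.symm b₂ = W.symm a₂ * b := by
    rw [← hab, ← h3]
    ring
  obtain ⟨a₁, c₁, aA, cA, sA, haA, hcA, hcr, -, -, hs, hsr⟩ :=
    frac_core M q hq hqM K₁ A₀ hqA ϖ hϖ x hx W hW a b (W.symm a₂) (W.symm b₂) ha hb hbu
      (by rw [W.apply_symm_apply]; exact ha₂) (by rw [W.apply_symm_apply]; exact hb₂)
      (by rw [W.apply_symm_apply]; exact hbu₂) hrel
  rw [hzab] at hs
  have hαcoe : ((heckeAlphaBar K₁ M q c₁ : ModelField K₁ (M * q)) : LaurentSeries K₁) =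
      gIota K₁ A₀ cA := by rw [coe_heckeAlphaBar, hcA]
  have h1 : InM (A₀ := A₀) (laurentBaseChange K₁ (modularFunctionFieldFull (M * q)))
      ((heckeAlphaBar K₁ M q c₁ * z' - heckeAlphaBar K₁ M q a₁ : ModelField K₁ (M * q)) :
        LaurentSeries K₁) := fv_inM_of_lift _ (Subtype.mem _) sA hs hsr
  have h2 : InV (A₀ := A₀) (laurentBaseChange K₁ (modularFunctionFieldFull (M * q)))
      ((heckeAlphaBar K₁ M q c₁ : ModelField K₁ (M * q)) : LaurentSeries K₁) :=
    fv_inV_of_lift _ (Subtype.mem _) cA hαcoe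
  have h4 : z * heckeAlphaBar K₁ M q c₁ - heckeAlphaBar K₁ M q a₁ =
      -(z' - z) * heckeAlphaBar K₁ M q c₁ +
        (heckeAlphaBar K₁ M q c₁ * z' - heckeAlphaBar K₁ M q a₁) := by ring
  have h5 : InM (A₀ := A₀) (laurentBaseChange K₁ (modularFunctionFieldFull (M * q)))
      ((z * heckeAlphaBar K₁ M q c₁ - heckeAlphaBar K₁ M q a₁ : ModelField K₁ (M * q)) :
        LaurentSeries K₁) := by
    rw [h4]
    exact fv_inM_add _ (fv_inM_mul _ (fv_inM_neg _ hdiff) h2) h1
  -- conclusion: `z' = a₁ / c₁`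
  have hc0 : (c₁ : LaurentSeries K₁) ≠ 0 := by
    rw [hcA]
    exact gIota_ne_zero_of_gRho hcr
  have h6 : InV (A₀ := A₀) (laurentBaseChange K₁ (modularFunctionFieldFull (M * q)))
      ((c₁ : LaurentSeries K₁))⁻¹ := by
    have h7 := fv_inV_inv_of_lift (laurentBaseChange K₁ (modularFunctionFieldFull (M * q)))
      (Subtype.mem (heckeAlphaBar K₁ M q c₁)) cA hαcoe hcr
    rwa [coe_heckeAlphaBar] at h7
  refine ⟨(a₁ : LaurentSeries K₁) * ((c₁ : LaurentSeries K₁))⁻¹,
    InV.mul _ (fv_inV_of_lift _ a₁.2 aA haA) (fv_inV_inv_of_lift _ c₁.2 cA hcA hcr), ?_⟩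
  have h8 : z₀ - (a₁ : LaurentSeries K₁) * ((c₁ : LaurentSeries K₁))⁻¹ =
      ((z * heckeAlphaBar K₁ M q c₁ - heckeAlphaBar K₁ M q a₁ : ModelField K₁ (M * q)) :
        LaurentSeries K₁) * ((c₁ : LaurentSeries K₁))⁻¹ := by
    have h9 : ((z * heckeAlphaBar K₁ M q c₁ - heckeAlphaBar K₁ M q a₁ :
        ModelField K₁ (M * q)) : LaurentSeries K₁) =
        z₀ * (c₁ : LaurentSeries K₁) - (a₁ : LaurentSeries K₁) := by
      rw [← hz, ← coe_heckeAlphaBar M q c₁, ← coe_heckeAlphaBar M q a₁]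
      rfl
    rw [h9, sub_mul, mul_assoc, mul_inv_cancel₀ hc0, mul_one]
  rw [h8]
  exact fv_inM_mul _ h5 h6

end Fermat.Agent.H61.SS
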