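/-
P-SS / SS-TMB-EULER (helper61), part 1: invariant effective divisors of a permutation.
Mathlib only.  Basic lemmas: support is periodic, orbit indicators, the shift bijection
`D ↦ D + m • 1_{O_x}`.
-/
import Mathlib

set_option autoImplicit false

noncomputable section

namespace Fermat.Agent.H61.Euler

open Function

variable {X : Type*} (σ : Equiv.Perm X)

/-- `σ`-invariant effective divisors of degree `n` (copy of `Fermat.Agent.H55.Zeta.invEff`). -/
def IE (n : ℕ) : Set (X →₀ ℤ) :=
  {D | 0 ≤ D ∧ (∀ x, D (σ x) = D x) ∧ (D.sum fun _ m => m) = (n : ℤ)}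

variable {σ}

section basic

variable {n : ℕ} {D : X →₀ ℤ}

lemma IE_nonneg (hD : D ∈ IE σ n) (x : X) : 0 ≤ D x := by
  have := hD.1
  exact this x

lemma IE_inv (hD : D ∈ IE σ n) (x : X) : D (σ x) = D x := hD.2.1 x

lemma IE_inv_pow (hD : D ∈ IE σ n) (i : ℕ) (x : X) : D ((σ ^ i) x) = D x := by
  induction i with
  | zero => simp
  | succ i ih => rw [pow_succ', Equiv.Perm.mul_apply, IE_inv hD, ih]

lemma IE_sum_eq (hD : D ∈ IE σ n) {S : Finset X} (hS : D.support ⊆ S) :
    ∑ x ∈ S, D x = (n : ℤ) := by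
  rw [← hD.2.2, Finsupp.sum_of_support_subset D hS (fun _ m => m) (fun _ _ => rfl)]

lemma IE_sum_subset_le (hD : D ∈ IE σ n) (S : Finset X) : ∑ x ∈ S, D x ≤ (n : ℤ) := by
  classical
  rw [← IE_sum_eq hD (S := S ∪ D.support) Finset.subset_union_right]
  exact Finset.sum_le_sum_of_subset_of_nonneg Finset.subset_union_left
    (fun x _ _ => IE_nonneg hD x)

lemma IE_le (hD : D ∈ IE σ n) (x : X) : D x ≤ (n : ℤ) := by
  have := IE_sum_subset_le hD {x}
  simpa using this

end basic

section orbit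

/-- The orbit of `x` as a finset (empty if `x` is not periodic). -/
def orb (σ : Equiv.Perm X) (x : X) : Finset X := by
  classical
  exact (Finset.range (minimalPeriod σ x)).image (fun i => (σ ^ i) x)

lemma mem_orb {x y : X} : y ∈ orb σ x ↔ ∃ i < minimalPeriod σ x, (σ ^ i) x = y := by
  classical
  simp [orb]

lemma card_orb (x : X) : (orb σ x).card = minimalPeriod σ x := by
  classical
  unfold orb
  rw [Finset.card_image_of_injOn, Finset.card_range]
  intro i hi j hj hij
  have hi' : i < minimalPeriod σ x := by simpa using hi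
  have hj' : j < minimalPeriod σ x := by simpa using hj
  exact (iterate_eq_iterate_iff_of_lt_minimalPeriod hi' hj').1 hij

lemma pow_minimalPeriod (x : X) : (σ ^ minimalPeriod σ x) x = x := by
  have := isPeriodicPt_minimalPeriod σ x
  rw [IsPeriodicPt, IsFixedPt, Equiv.Perm.iterate_eq_pow] at this
  exact this

lemma pow_mod_minimalPeriod (x : X) (i : ℕ) :
    (σ ^ (i % minimalPeriod σ x)) x = (σ ^ i) x := by
  have := iterate_mod_minimalPeriod_eq (f := σ) (x := x) (n := i)
  rw [Equiv.Perm.iterate_eq_pow, Equiv.Perm.iterate_eq_pow] at this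
  exact this

lemma self_mem_orb {x : X} (hx : 0 < minimalPeriod σ x) : x ∈ orb σ x :=
  mem_orb.2 ⟨0, hx, by simp⟩

lemma pow_mem_orb {x : X} (hx : 0 < minimalPeriod σ x) (i : ℕ) : (σ ^ i) x ∈ orb σ x :=
  mem_orb.2 ⟨i % minimalPeriod σ x, Nat.mod_lt _ hx, pow_mod_minimalPeriod x i⟩

lemma apply_mem_orb_iff {x : X} (hx : 0 < minimalPeriod σ x) (y : X) :
    σ y ∈ orb σ x ↔ y ∈ orb σ x := by
  constructor
  · intro h
    obtain ⟨i, _, hi⟩ := mem_orb.1 h
    -- y = σ⁻¹ (σ^i x) = σ^(i + d - 1) x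
    have hy : y = (σ ^ (i + (minimalPeriod σ x - 1))) x := by
      apply σ.injective
      rw [← hi, ← Equiv.Perm.mul_apply, ← pow_succ']
      have : i + (minimalPeriod σ x - 1) + 1 = i + minimalPeriod σ x := by omega
      rw [this, pow_add, Equiv.Perm.mul_apply, pow_minimalPeriod]
    rw [hy]
    exact pow_mem_orb hx _
  · intro h
    obtain ⟨i, _, hi⟩ := mem_orb.1 h
    rw [← hi, ← Equiv.Perm.mul_apply, ← pow_succ']
    exact pow_mem_orb hx _

/-- The indicator of the orbit of `x`. -/
def oind (σ : Equiv.Perm X) (x : X) : X →₀ ℤ := Finsupp.indicator (orb σ x) (fun _ _ => 1)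

lemma oind_apply (x y : X) [Decidable (y ∈ orb σ x)] :
    oind σ x y = if y ∈ orb σ x then 1 else 0 := by
  classical
  unfold oind
  rw [Finsupp.indicator_apply]
  split_ifs <;> rfl

lemma oind_nonneg (x y : X) : 0 ≤ oind σ x y := by
  classical
  rw [oind_apply]
  split_ifs <;> norm_num

lemma oind_self {x : X} (hx : 0 < minimalPeriod σ x) : oind σ x x = 1 := by
  classical
  rw [oind_apply, if_pos (self_mem_orb hx)]

lemma oind_inv {x : X} (hx : 0 < minimalPeriod σ x) (y : X) : oind σ x (σ y) = oind σ x y := by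
  classical
  rw [oind_apply, oind_apply]
  simp only [apply_mem_orb_iff hx]

lemma oind_support_subset (x : X) : (oind σ x).support ⊆ orb σ x := by
  classical
  intro y hy
  rw [Finsupp.mem_support_iff, oind_apply] at hy
  by_contra h
  rw [if_neg h] at hy
  exact hy rfl

lemma oind_sum (x : X) : ((oind σ x).sum fun _ m => m) = (minimalPeriod σ x : ℤ) := by
  classical
  rw [Finsupp.sum_of_support_subset _ (oind_support_subset x) (fun _ m => m) (fun _ _ => rfl)]
  have : ∀ y ∈ orb σ x, oind σ x y = 1 := by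
    intro y hy
    rw [oind_apply, if_pos hy]
  rw [Finset.sum_congr rfl this]
  simp [card_orb]

end orbit

section shift

variable {n : ℕ} {D : X →₀ ℤ}

/-- Points of the support are periodic. -/
lemma IE_periodic (hD : D ∈ IE σ n) {x : X} (hx : D x ≠ 0) : 0 < minimalPeriod σ x := by
  classical
  rw [minimalPeriod_pos_iff_mem_periodicPts]
  -- the orbit stays in the finite support
  have hmem : ∀ i : ℕ, (σ ^ i) x ∈ D.support := by
    intro i
    rw [Finsupp.mem_support_iff, IE_inv_pow hD]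
    exact hx
  obtain ⟨i, j, hij, h⟩ : ∃ i j : ℕ, i ≠ j ∧ (σ ^ i) x = (σ ^ j) x := by
    by_contra hcon
    push Not at hcon
    have hinj : Function.Injective (fun i : ℕ => (⟨(σ ^ i) x, hmem i⟩ : D.support)) := by
      intro i j hij
      by_contra hne
      exact hcon i j hne (congrArg Subtype.val hij)
    exact not_injective_infinite_finite _ hinj
  -- wlog i < j
  wlog hlt : i < j generalizing i j
  · exact this j i hij.symm h.symm (lt_of_le_of_ne (not_lt.1 hlt) hij.symm)
  refine mk_mem_periodicPts (n := j - i) (by omega) ?_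
  rw [IsPeriodicPt, IsFixedPt, Equiv.Perm.iterate_eq_pow]
  apply (σ ^ i).injective
  rw [← Equiv.Perm.mul_apply, ← pow_add]
  have : i + (j - i) = j := by omega
  rw [this, h]

lemma IE_smul_oind_le (hD : D ∈ IE σ n) (x y : X) : D x * oind σ x y ≤ D y := by
  classical
  rw [oind_apply]
  split_ifs with h
  · obtain ⟨i, _, hi⟩ := mem_orb.1 h
    rw [← hi, IE_inv_pow hD, mul_one]
  · rw [mul_zero]
    exact IE_nonneg hD y

/-- `d_x * D x ≤ n`. -/
lemma IE_period_mul_le (hD : D ∈ IE σ n) (x : X) : (minimalPeriod σ x : ℤ) * D x ≤ n := by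
  classical
  have h1 := IE_sum_subset_le hD (orb σ x)
  have h2 : ∀ y ∈ orb σ x, D y = D x := by
    intro y hy
    obtain ⟨i, _, hi⟩ := mem_orb.1 hy
    rw [← hi, IE_inv_pow hD]
  rw [Finset.sum_congr rfl h2, Finset.sum_const, card_orb, nsmul_eq_mul] at h1
  exact h1

/-- Adding a multiple of an orbit indicator. -/
lemma IE_add_oind (hD : D ∈ IE σ n) {x : X} (hx : 0 < minimalPeriod σ x) (m : ℕ) :
    D + (m : ℤ) • oind σ x ∈ IE σ (n + m * minimalPeriod σ x) := by
  refine ⟨?_, ?_, ?_⟩
  · intro y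
    simp only [Finsupp.coe_zero, Pi.zero_apply, Finsupp.coe_add, Finsupp.coe_smul, Pi.add_apply,
      Pi.smul_apply, smul_eq_mul]
    exact add_nonneg (IE_nonneg hD y) (mul_nonneg (by positivity) (oind_nonneg x y))
  · intro y
    simp only [Finsupp.coe_add, Finsupp.coe_smul, Pi.add_apply, Pi.smul_apply, smul_eq_mul]
    rw [IE_inv hD, oind_inv hx]
  · rw [Finsupp.sum_add_index' (fun _ => rfl) (fun _ _ _ => rfl), hD.2.2,
      Finsupp.sum_smul_index' (fun _ => rfl)]
    simp only [smul_eq_mul]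
    rw [← Finsupp.mul_sum, oind_sum]
    push_cast
    ring

/-- Subtracting a multiple of an orbit indicator. -/
lemma IE_sub_oind (hD : D ∈ IE σ n) {x : X} (hx : 0 < minimalPeriod σ x) {m : ℕ}
    (hm : (m : ℤ) ≤ D x) :
    m * minimalPeriod σ x ≤ n ∧ D - (m : ℤ) • oind σ x ∈ IE σ (n - m * minimalPeriod σ x) := by
  have hle : m * minimalPeriod σ x ≤ n := by
    have h1 := IE_period_mul_le hD x
    have h2 : (minimalPeriod σ x : ℤ) * m ≤ (minimalPeriod σ x : ℤ) * D x :=
      mul_le_mul_of_nonneg_left hm (by positivity)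
    have h3 : ((m * minimalPeriod σ x : ℕ) : ℤ) ≤ n := by
      push_cast
      linarith
    exact_mod_cast h3
  refine ⟨hle, ?_, ?_, ?_⟩
  · intro y
    simp only [Finsupp.coe_zero, Pi.zero_apply, Finsupp.coe_sub, Finsupp.coe_smul, Pi.sub_apply,
      Pi.smul_apply, smul_eq_mul]
    have h1 := IE_smul_oind_le hD x y
    have h2 : (m : ℤ) * oind σ x y ≤ D x * oind σ x y :=
      mul_le_mul_of_nonneg_right hm (oind_nonneg x y)
    linarith
  · intro y
    simp only [Finsupp.coe_sub, Finsupp.coe_smul, Pi.sub_apply, Pi.smul_apply, smul_eq_mul]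
    rw [IE_inv hD, oind_inv hx]
  · rw [Finsupp.sum_sub_index (fun _ _ _ => rfl), hD.2.2,
      Finsupp.sum_smul_index' (fun _ => rfl)]
    simp only [smul_eq_mul]
    rw [← Finsupp.mul_sum, oind_sum]
    push_cast [hle]
    ring

/-- **The shift bijection.** -/
lemma setOf_le_eq_image {x : X} (hx : 0 < minimalPeriod σ x) (N m : ℕ)
    (hle : m * minimalPeriod σ x ≤ N) :
    {D | D ∈ IE σ N ∧ (m : ℤ) ≤ D x} =
      (fun D' : X →₀ ℤ => D' + (m : ℤ) • oind σ x) '' IE σ (N - m * minimalPeriod σ x) := by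
  ext D
  constructor
  · rintro ⟨hD, hm⟩
    refine ⟨D - (m : ℤ) • oind σ x, (IE_sub_oind hD hx hm).2, by simp⟩
  · rintro ⟨D', hD', rfl⟩
    refine ⟨?_, ?_⟩
    · have := IE_add_oind hD' hx m
      rwa [Nat.sub_add_cancel hle] at this
    · simp only [Finsupp.coe_add, Finsupp.coe_smul, Pi.add_apply, Pi.smul_apply, smul_eq_mul]
      rw [oind_self hx, mul_one]
      have := IE_nonneg hD' x
      linarith

lemma ncard_setOf_le {x : X} (hx : 0 < minimalPeriod σ x) (N m : ℕ) :
    {D | D ∈ IE σ N ∧ (m : ℤ) ≤ D x}.ncard =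
      if m * minimalPeriod σ x ≤ N then (IE σ (N - m * minimalPeriod σ x)).ncard else 0 := by
  split_ifs with hle
  · rw [setOf_le_eq_image hx N m hle]
    exact Set.ncard_image_of_injective _ (add_left_injective _)
  · have : {D | D ∈ IE σ N ∧ (m : ℤ) ≤ D x} = ∅ := by
      ext D
      simp only [Set.mem_ofPred_eq, Set.mem_empty_iff_false, iff_false, not_and]
      intro hD hm
      exact hle (IE_sub_oind hD hx hm).1
    rw [this, Set.ncard_empty]

end shift

end Fermat.Agent.H61.Euler
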