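/-
P-SS / SS-TMB-EULER (helper61), part 2: finiteness and the Euler recurrence
`(n+1) a(n+1) = ∑_{i+j=n} a(i) N(j+1)`.  Mathlib only.
-/
import Mathlib
import Fermat.Agent.H61.SS.EulerRec1

set_option autoImplicit false

noncomputable section

namespace Fermat.Agent.H61.Euler

open Function
open scoped Nat

variable {X : Type*} {σ : Equiv.Perm X}

section arith

/-- Reindexing the divisor sum. -/
lemma arith_reindex (a : ℕ → ℤ) (n d : ℕ) (hd : 0 < d) :
    ∑ ij ∈ Finset.HasAntidiagonal.antidiagonal n, (if d ∣ ij.2 + 1 then a ij.1 else 0) =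
      ∑ m ∈ Finset.Icc 1 (n + 1), (if m * d ≤ n + 1 then a (n + 1 - m * d) else 0) := by
  rw [← Finset.sum_filter, ← Finset.sum_filter]
  refine Finset.sum_nbij' (fun ij => (ij.2 + 1) / d) (fun m => (n + 1 - m * d, m * d - 1))
    ?_ ?_ ?_ ?_ ?_
  · intro ij hij
    simp only [Finset.mem_filter, Finset.HasAntidiagonal.mem_antidiagonal] at hij
    obtain ⟨hsum, c, hc⟩ := hij
    have hc0 : 0 < c := by
      rcases Nat.eq_zero_or_pos c with h | h
      · rw [h, mul_zero] at hc; omega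
      · exact h
    have hdiv : (ij.2 + 1) / d = c := by rw [hc, Nat.mul_div_cancel_left _ hd]
    simp only [Finset.mem_filter, Finset.mem_Icc, hdiv]
    have h1 : c * d = ij.2 + 1 := by rw [hc, mul_comm]
    have h2 : c ≤ c * d := Nat.le_mul_of_pos_right _ hd
    refine ⟨⟨hc0, by omega⟩, by omega⟩
  · intro m hm
    simp only [Finset.mem_filter, Finset.mem_Icc] at hm
    obtain ⟨⟨hm1, _⟩, hle⟩ := hm
    have h1 : 1 ≤ m * d := Nat.mul_pos hm1 hd
    simp only [Finset.mem_filter, Finset.HasAntidiagonal.mem_antidiagonal]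
    refine ⟨by omega, ?_⟩
    rw [Nat.sub_add_cancel h1]
    exact Dvd.intro_left m rfl
  · intro ij hij
    simp only [Finset.mem_filter, Finset.HasAntidiagonal.mem_antidiagonal] at hij
    obtain ⟨hsum, c, hc⟩ := hij
    have hdiv : (ij.2 + 1) / d * d = ij.2 + 1 := Nat.div_mul_cancel ⟨c, hc⟩
    rw [hdiv]
    ext
    · simp only; omega
    · simp only; omega
  · intro m hm
    simp only [Finset.mem_filter, Finset.mem_Icc] at hm
    obtain ⟨⟨hm1, _⟩, hle⟩ := hm
    have h1 : 1 ≤ m * d := Nat.mul_pos hm1 hd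
    show (m * d - 1 + 1) / d = m
    rw [Nat.sub_add_cancel h1, Nat.mul_div_cancel _ hd]
  · intro ij hij
    simp only [Finset.mem_filter, Finset.HasAntidiagonal.mem_antidiagonal] at hij
    obtain ⟨hsum, c, hc⟩ := hij
    have hdiv : (ij.2 + 1) / d * d = ij.2 + 1 := Nat.div_mul_cancel ⟨c, hc⟩
    rw [hdiv]
    congr 1
    omega

/-- `z = #{m ∈ [1, N] : m ≤ z}` for `0 ≤ z ≤ N`. -/
lemma int_eq_sum_ite {z : ℤ} {N : ℕ} (h0 : 0 ≤ z) (hN : z ≤ N) :
    ∑ m ∈ Finset.Icc 1 N, (if (m : ℤ) ≤ z then (1 : ℤ) else 0) = z := by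
  obtain ⟨k, rfl⟩ := Int.eq_ofNat_of_zero_le h0
  have hk : k ≤ N := by exact_mod_cast hN
  rw [Finset.sum_boole]
  have : (Finset.Icc 1 N).filter (fun m : ℕ => (m : ℤ) ≤ (k : ℤ)) = Finset.Icc 1 k := by
    ext m
    simp only [Finset.mem_filter, Finset.mem_Icc, Nat.cast_le]
    omega
  rw [this]
  simp

end arith

section fin

variable (hfix : ∀ s : ℕ, 0 < s → {x : X | (σ ^ s) x = x}.Finite)
include hfix

/-- A finite set containing all periodic points of period `≤ N`. -/
def bigFix (N : ℕ) : Finset X := (hfix (N !) (Nat.factorial_pos N)).toFinset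

lemma mem_bigFix {N : ℕ} {x : X} : x ∈ bigFix hfix N ↔ (σ ^ N !) x = x := by
  simp [bigFix]

lemma mem_bigFix_of_pow_eq {N s : ℕ} (hs : 0 < s) (hsN : s ≤ N) {x : X} (hx : (σ ^ s) x = x) :
    x ∈ bigFix hfix N := by
  rw [mem_bigFix]
  obtain ⟨c, hc⟩ := Nat.dvd_factorial hs hsN
  rw [hc, pow_mul]
  have : ∀ k : ℕ, ((σ ^ s) ^ k) x = x := by
    intro k
    induction k with
    | zero => simp
    | succ k ih => rw [pow_succ, Equiv.Perm.mul_apply, hx, ih]
  exact this c

lemma period_pos_of_mem_bigFix {N : ℕ} {x : X} (hx : x ∈ bigFix hfix N) :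
    0 < minimalPeriod σ x := by
  rw [mem_bigFix] at hx
  exact IsPeriodicPt.minimalPeriod_pos (Nat.factorial_pos N)
    (by rw [IsPeriodicPt, IsFixedPt, Equiv.Perm.iterate_eq_pow]; exact hx)

lemma IE_support_subset {D : X →₀ ℤ} {i N : ℕ} (hD : D ∈ IE σ i) (hi : i ≤ N) :
    D.support ⊆ bigFix hfix N := by
  intro x hx
  rw [Finsupp.mem_support_iff] at hx
  have hpos := IE_periodic hD hx
  have h1 : 1 ≤ D x := by
    have := IE_nonneg hD x
    omega
  have h2 := IE_period_mul_le hD x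
  have h3 : (minimalPeriod σ x : ℤ) ≤ i := by
    have : (minimalPeriod σ x : ℤ) * 1 ≤ (minimalPeriod σ x : ℤ) * D x :=
      mul_le_mul_of_nonneg_left h1 (by positivity)
    linarith
  have h4 : minimalPeriod σ x ≤ N := by
    have : minimalPeriod σ x ≤ i := by exact_mod_cast h3
    omega
  exact mem_bigFix_of_pow_eq hfix hpos h4 (pow_minimalPeriod x)

/-- **Finiteness** of the set of invariant effective divisors of degree `i`. -/
theorem IE_finite (i : ℕ) : (IE σ i).Finite := by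
  classical
  refine Set.Finite.subset
    (((bigFix hfix i).finsupp (fun _ => Finset.Icc (0 : ℤ) i)).finite_toSet) ?_
  intro D hD
  rw [Finset.mem_coe, Finset.mem_finsupp_iff]
  refine ⟨IE_support_subset hfix hD le_rfl, fun x _ => ?_⟩
  rw [Finset.mem_Icc]
  exact ⟨IE_nonneg hD x, IE_le hD x⟩

/-- The finset of invariant effective divisors of degree `i`. -/
def EF (i : ℕ) : Finset (X →₀ ℤ) := (IE_finite hfix i).toFinset

lemma mem_EF {i : ℕ} {D : X →₀ ℤ} : D ∈ EF hfix i ↔ D ∈ IE σ i := by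
  simp [EF]

lemma card_EF (i : ℕ) : (EF hfix i).card = (IE σ i).ncard := by
  rw [EF, Set.ncard_eq_toFinset_card _ (IE_finite hfix i)]

/-- Per-point identity, first half. -/
lemma sum_apply_eq {N : ℕ} {x : X} (hx : 0 < minimalPeriod σ x) :
    ∑ D ∈ EF hfix N, D x =
      ∑ m ∈ Finset.Icc 1 N, (if m * minimalPeriod σ x ≤ N then
        ((IE σ (N - m * minimalPeriod σ x)).ncard : ℤ) else 0) := by
  classical
  have h1 : ∀ D ∈ EF hfix N, D x =
      ∑ m ∈ Finset.Icc 1 N, (if (m : ℤ) ≤ D x then (1 : ℤ) else 0) := by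
    intro D hD
    rw [mem_EF] at hD
    exact (int_eq_sum_ite (IE_nonneg hD x) (IE_le hD x)).symm
  rw [Finset.sum_congr rfl h1, Finset.sum_comm]
  refine Finset.sum_congr rfl fun m _ => ?_
  rw [Finset.sum_boole]
  have h2 : (((EF hfix N).filter (fun D => (m : ℤ) ≤ D x)).card) =
      {D | D ∈ IE σ N ∧ (m : ℤ) ≤ D x}.ncard := by
    rw [← Set.ncard_coe_finset]
    congr 1
    ext D
    simp [mem_EF]
  rw [h2, ncard_setOf_le hx]
  split_ifs <;> simp

/-- Number of fixed points of `σ ^ s` as a sum over `bigFix`. -/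
lemma ncard_fix_eq {N s : ℕ} (hs : 0 < s) (hsN : s ≤ N) :
    ({x : X | (σ ^ s) x = x}.ncard : ℤ) =
      ∑ x ∈ bigFix hfix N, (if minimalPeriod σ x ∣ s then (1 : ℤ) else 0) := by
  classical
  rw [Finset.sum_boole]
  have : {x : X | (σ ^ s) x = x} =
      ↑((bigFix hfix N).filter (fun x => minimalPeriod σ x ∣ s)) := by
    ext x
    simp only [Set.mem_ofPred_eq, Finset.coe_filter]
    rw [← isPeriodicPt_iff_minimalPeriod_dvd, IsPeriodicPt, IsFixedPt,
      Equiv.Perm.iterate_eq_pow]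
    constructor
    · intro h
      exact ⟨mem_bigFix_of_pow_eq hfix hs hsN h, h⟩
    · intro h
      exact h.2
  rw [this, Set.ncard_coe_finset]

/-- **The Euler recurrence.** -/
theorem euler_rec (n : ℕ) :
    (n + 1) * (IE σ (n + 1)).ncard =
      ∑ ij ∈ Finset.HasAntidiagonal.antidiagonal n,
        (IE σ ij.1).ncard * {x : X | (σ ^ (ij.2 + 1)) x = x}.ncard := by
  classical
  have key : (((n + 1) * (IE σ (n + 1)).ncard : ℕ) : ℤ) =
      ((∑ ij ∈ Finset.HasAntidiagonal.antidiagonal n,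
        (IE σ ij.1).ncard * {x : X | (σ ^ (ij.2 + 1)) x = x}.ncard : ℕ) : ℤ) := by
    -- left-hand side
    have hL : (((n + 1) * (IE σ (n + 1)).ncard : ℕ) : ℤ) =
        ∑ x ∈ bigFix hfix (n + 1), ∑ D ∈ EF hfix (n + 1), D x := by
      rw [Finset.sum_comm]
      have : ∀ D ∈ EF hfix (n + 1), ∑ x ∈ bigFix hfix (n + 1), D x = ((n + 1 : ℕ) : ℤ) := by
        intro D hD
        rw [mem_EF] at hD
        exact IE_sum_eq hD (IE_support_subset hfix hD le_rfl)
      rw [Finset.sum_congr rfl this, Finset.sum_const, card_EF]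
      push_cast
      ring
    -- right-hand side
    have hR : ((∑ ij ∈ Finset.HasAntidiagonal.antidiagonal n,
        (IE σ ij.1).ncard * {x : X | (σ ^ (ij.2 + 1)) x = x}.ncard : ℕ) : ℤ) =
        ∑ x ∈ bigFix hfix (n + 1), ∑ ij ∈ Finset.HasAntidiagonal.antidiagonal n,
          (if minimalPeriod σ x ∣ ij.2 + 1 then ((IE σ ij.1).ncard : ℤ) else 0) := by
      rw [Finset.sum_comm, Nat.cast_sum]
      refine Finset.sum_congr rfl fun ij hij => ?_
      have hle : ij.2 + 1 ≤ n + 1 := by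
        have := Finset.HasAntidiagonal.mem_antidiagonal.1 hij
        omega
      rw [Nat.cast_mul, ncard_fix_eq hfix (Nat.succ_pos _) hle, Finset.mul_sum]
      refine Finset.sum_congr rfl fun x _ => ?_
      split_ifs <;> simp
    rw [hL, hR]
    refine Finset.sum_congr rfl fun x hx => ?_
    have hpos := period_pos_of_mem_bigFix hfix hx
    rw [sum_apply_eq hfix hpos]
    exact (arith_reindex (fun i => ((IE σ i).ncard : ℤ)) n _ hpos).symm
  exact_mod_cast key

end fin

end Fermat.Agent.H61.Euler
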