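/-
P-SS / SS-TMB-EULER (helper61): `Fermat.Agent.H55.Zeta.EulerRecurrenceStatement`.
-/
import Fermat.Agent.H55.Zeta.Interfaces
import Fermat.Agent.H61.SS.EulerRec2

set_option autoImplicit false

namespace Fermat.Agent.H61

open Fermat.Agent.H55.Zeta

/-- **Row SS-TMB-EULER.** -/
theorem eulerRecurrence : EulerRecurrenceStatement := by
  intro X σ hfix
  have h : ∀ n : ℕ, invEff σ n = Euler.IE σ n := fun _ => rfl
  refine ⟨fun n => ?_, fun n => ?_⟩
  · rw [h]
    exact Euler.IE_finite hfix n
  · simp only [h]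
    exact Euler.euler_rec hfix n

end Fermat.Agent.H61
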